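/-
P-CFT / WP3 units block (U2): the Herbrand quotient, elementary form.  Mathlib only.

A *Herbrand pair* on an additive commutative group `A` is a pair of endomorphisms `D`, `N`
with `D ∘ N = 0 = N ∘ D` (for a cyclic group `⟨σ⟩` of order `n` acting on `A`:
`D = σ - 1`, `N = 1 + σ + ⋯ + σ^(n-1)`).  We put

* `h0 = [ker D : im N]`  (the order of `Ĥ⁰`),
* `h1 = [ker N : im D]`  (the order of `Ĥ⁻¹ ≅ H¹`),

both as `AddSubgroup.relIndex` (so `0` means "infinite"), and prove

* `herbrand_hexagon`: for a short exact sequence `0 → A → B → C → 0` of Herbrand pairs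
  `h0 B * h1 A * h1 C = h1 B * h0 A * h0 C` (unconditionally, with the convention above),
  together with the "two out of three" finiteness statements;
* `h0_eq_h1_of_finite`: on a finite group `h0 = h1 ≠ 0`.
-/
import Mathlib

set_option autoImplicit false

namespace Fermat.Agent.H24

/-- A pair of endomorphisms `D`, `N` of an additive commutative group with `D ∘ N = 0 = N ∘ D`. -/
structure HerbrandPair (A : Type*) [AddCommGroup A] where
  /-- the "difference" operator (`σ - 1`) -/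
  D : A →+ A
  /-- the "norm" operator (`1 + σ + ⋯ + σ^(n-1)`) -/
  N : A →+ A
  D_N : ∀ a, D (N a) = 0
  N_D : ∀ a, N (D a) = 0

namespace HerbrandPair

variable {A B C : Type*} [AddCommGroup A] [AddCommGroup B] [AddCommGroup C]

/-- Exchange the roles of `D` and `N`. -/
def swap (P : HerbrandPair A) : HerbrandPair A := ⟨P.N, P.D, P.N_D, P.D_N⟩

@[simp] lemma swap_D (P : HerbrandPair A) : P.swap.D = P.N := rfl
@[simp] lemma swap_N (P : HerbrandPair A) : P.swap.N = P.D := rfl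
@[simp] lemma swap_swap (P : HerbrandPair A) : P.swap.swap = P := rfl

/-- `[ker D : im N]`, `0` if infinite. -/
noncomputable def h0 (P : HerbrandPair A) : ℕ := P.N.range.relIndex P.D.ker

/-- `[ker N : im D]`, `0` if infinite. -/
noncomputable def h1 (P : HerbrandPair A) : ℕ := P.D.range.relIndex P.N.ker

lemma h1_eq_h0_swap (P : HerbrandPair A) : P.h1 = P.swap.h0 := rfl
lemma h0_eq_h1_swap (P : HerbrandPair A) : P.h0 = P.swap.h1 := rfl

lemma range_N_le_ker_D (P : HerbrandPair A) : P.N.range ≤ P.D.ker := by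
  rintro _ ⟨a, rfl⟩
  exact P.D_N a

lemma range_D_le_ker_N (P : HerbrandPair A) : P.D.range ≤ P.N.ker := by
  rintro _ ⟨a, rfl⟩
  exact P.N_D a

/-- A morphism of Herbrand pairs: an additive map commuting with `D` and `N`. -/
structure IsHom (P : HerbrandPair A) (Q : HerbrandPair B) (f : A →+ B) : Prop where
  comm_D : ∀ a, f (P.D a) = Q.D (f a)
  comm_N : ∀ a, f (P.N a) = Q.N (f a)

lemma IsHom.swap {P : HerbrandPair A} {Q : HerbrandPair B} {f : A →+ B} (h : IsHom P Q f) :
    IsHom P.swap Q.swap f := ⟨h.comm_N, h.comm_D⟩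

section exact

variable {P : HerbrandPair A} {Q : HerbrandPair B} {R : HerbrandPair C}
  {f : A →+ B} {g : B →+ C}

/-- First index identity: `[ker D_B : im N_B] = [ker D_A : f⁻¹ im N_B] * [g (ker D_B) : im N_C]`. -/
lemma h0_mid (hf : IsHom P Q f) (hg : IsHom Q R g) (hinj : Function.Injective f)
    (hsurj : Function.Surjective g) (hex : f.range = g.ker) :
    Q.h0 = (Q.N.range.comap f).relIndex P.D.ker * R.N.range.relIndex (Q.D.ker.map g) := by
  have hmapN : Q.N.range.map g = R.N.range := by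
    ext c
    constructor
    · rintro ⟨_, ⟨b, rfl⟩, rfl⟩
      exact ⟨g b, (hg.comm_N b).symm⟩
    · rintro ⟨c', rfl⟩
      obtain ⟨b, rfl⟩ := hsurj c'
      exact ⟨Q.N b, ⟨b, rfl⟩, hg.comm_N b⟩
  have hker : g.ker ⊓ Q.D.ker = P.D.ker.map f := by
    ext b
    constructor
    · rintro ⟨hb1, hb2⟩
      rw [← hex] at hb1
      obtain ⟨a, rfl⟩ := hb1
      refine ⟨a, ?_, rfl⟩
      have h0 : Q.D (f a) = 0 := hb2
      show P.D a = 0
      apply hinj
      rw [hf.comm_D, h0, map_zero]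
    · rintro ⟨a, ha, rfl⟩
      refine ⟨?_, ?_⟩
      · rw [← hex]; exact ⟨a, rfl⟩
      · have ha' : P.D a = 0 := ha
        show Q.D (f a) = 0
        rw [← hf.comm_D, ha', map_zero]
  have hle : Q.N.range ≤ Q.D.ker := Q.range_N_le_ker_D
  have hmid : Q.N.range ≤ Q.N.range ⊔ P.D.ker.map f := le_sup_left
  have hmid2 : Q.N.range ⊔ P.D.ker.map f ≤ Q.D.ker := by
    rw [← hker]
    exact sup_le hle inf_le_right
  have e1 : Q.N.range.relIndex (Q.N.range ⊔ P.D.ker.map f)
      = (Q.N.range.comap f).relIndex P.D.ker := by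
    rw [AddSubgroup.relIndex_sup_left, AddSubgroup.relIndex_comap]
  have e2 : (Q.N.range ⊔ P.D.ker.map f).relIndex Q.D.ker
      = R.N.range.relIndex (Q.D.ker.map g) := by
    have h3 : Q.D.ker ⊔ g.ker = Q.D.ker ⊔ (Q.N.range ⊔ g.ker) := by
      rw [← sup_assoc, sup_of_le_left hle]
    have h4 : (Q.N.range ⊔ g.ker) ⊓ Q.D.ker = Q.N.range ⊔ P.D.ker.map f := by
      rw [sup_inf_assoc_of_le _ hle, hker]
    rw [← hmapN, AddSubgroup.relIndex_map_map, h3, AddSubgroup.relIndex_sup_right,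
      ← AddSubgroup.inf_relIndex_right (Q.N.range ⊔ g.ker) Q.D.ker, h4]
  rw [h0, ← AddSubgroup.relIndex_mul_relIndex _ _ _ hmid hmid2, e1, e2]

/-- Connecting identity (the boundary map of the hexagon, as an equality of indices):
`[ker D_C : g (ker D_B)] = [f⁻¹ (im D_B) : im D_A]`. -/
lemma conn (hf : IsHom P Q f) (hg : IsHom Q R g) (hinj : Function.Injective f)
    (hsurj : Function.Surjective g) (hex : f.range = g.ker) :
    (Q.D.ker.map g).relIndex R.D.ker = P.D.range.relIndex (Q.D.range.comap f) := by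
  have hP'2 : R.D.ker.comap g = f.range.comap Q.D := by
    ext b
    rw [AddSubgroup.mem_comap, AddSubgroup.mem_comap, hex, AddMonoidHom.mem_ker,
      AddMonoidHom.mem_ker, hg.comm_D]
  have hKC : R.D.ker = (R.D.ker.comap g).map g :=
    (AddSubgroup.map_comap_eq_self_of_surjective hsurj _).symm
  have hkerg : g.ker ≤ R.D.ker.comap g := by
    intro b hb
    rw [AddSubgroup.mem_comap, AddMonoidHom.mem_ker, AddMonoidHom.mem_ker.mp hb, map_zero]
  have hKD : Q.D.ker ≤ R.D.ker.comap g := by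
    intro b hb
    rw [AddSubgroup.mem_comap, AddMonoidHom.mem_ker, ← hg.comm_D, AddMonoidHom.mem_ker.mp hb,
      map_zero]
  have L : (Q.D.ker.map g).relIndex R.D.ker = (Q.D.ker ⊔ g.ker).relIndex (R.D.ker.comap g) := by
    conv_lhs => rw [hKC]
    rw [AddSubgroup.relIndex_map_map, sup_of_le_left hkerg]
  have hmapf1 : P.D.range.map f = f.range.map Q.D := by
    ext b
    constructor
    · rintro ⟨_, ⟨a, rfl⟩, rfl⟩
      exact ⟨f a, ⟨a, rfl⟩, (hf.comm_D a).symm⟩
    · rintro ⟨_, ⟨a, rfl⟩, rfl⟩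
      exact ⟨P.D a, ⟨a, rfl⟩, hf.comm_D a⟩
  have hmapf2 : (Q.D.range.comap f).map f = (R.D.ker.comap g).map Q.D := by
    rw [hP'2]
    ext b
    constructor
    · rintro ⟨a, ha, rfl⟩
      obtain ⟨b', hb'⟩ := ha
      exact ⟨b', by show Q.D b' ∈ f.range; rw [hb']; exact ⟨a, rfl⟩, hb'⟩
    · rintro ⟨b', hb', rfl⟩
      obtain ⟨a, ha⟩ := hb'
      exact ⟨a, ⟨b', ha.symm⟩, ha⟩
  have Rr : P.D.range.relIndex (Q.D.range.comap f)
      = (f.range ⊔ Q.D.ker).relIndex (R.D.ker.comap g) := by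
    rw [← AddSubgroup.relIndex_map_map_of_injective _ _ hinj, hmapf1, hmapf2,
      AddSubgroup.relIndex_map_map, sup_of_le_left hKD]
  rw [L, Rr, hex, sup_comm]

/-- Second factorisation: `[ker D_A : im N_A] = [f⁻¹ im N_B : im N_A] * [ker D_A : f⁻¹ im N_B]`. -/
lemma h0_left (hf : IsHom P Q f) (hinj : Function.Injective f) :
    P.h0 = P.N.range.relIndex (Q.N.range.comap f) * (Q.N.range.comap f).relIndex P.D.ker := by
  have h1 : P.N.range ≤ Q.N.range.comap f := by
    rintro _ ⟨a, rfl⟩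
    exact ⟨f a, (hf.comm_N a).symm⟩
  have h2 : Q.N.range.comap f ≤ P.D.ker := by
    intro a ha
    obtain ⟨b, hb⟩ := ha
    rw [AddMonoidHom.mem_ker]
    apply hinj
    rw [hf.comm_D, ← hb, Q.D_N, map_zero]
  rw [h0, AddSubgroup.relIndex_mul_relIndex _ _ _ h1 h2]

/-- Third factorisation: `[ker D_C : im N_C] = [g ker D_B : im N_C] * [ker D_C : g ker D_B]`. -/
lemma h0_right (hg : IsHom Q R g) (hsurj : Function.Surjective g) :
    R.h0 = R.N.range.relIndex (Q.D.ker.map g) * (Q.D.ker.map g).relIndex R.D.ker := by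
  have h2 : Q.D.ker.map g ≤ R.D.ker := by
    rintro _ ⟨b, hb, rfl⟩
    rw [AddMonoidHom.mem_ker, ← hg.comm_D, AddMonoidHom.mem_ker.mp hb, map_zero]
  have h1 : R.N.range ≤ Q.D.ker.map g := by
    rintro _ ⟨c, rfl⟩
    obtain ⟨b, rfl⟩ := hsurj c
    exact ⟨Q.N b, Q.D_N b, hg.comm_N b⟩
  rw [h0, AddSubgroup.relIndex_mul_relIndex _ _ _ h1 h2]

/-- The six Herbrand indices of a short exact sequence factor through six auxiliary indices
(the orders of the images of the six maps of the hexagon). -/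
theorem hexagon_factor (hf : IsHom P Q f) (hg : IsHom Q R g) (hinj : Function.Injective f)
    (hsurj : Function.Surjective g) (hex : f.range = g.ker) :
    ∃ x₁ x₂ x₃ y₁ y₂ y₃ : ℕ, Q.h0 = x₁ * x₂ ∧ Q.h1 = y₁ * y₂ ∧ P.h0 = x₃ * x₁ ∧
      P.h1 = y₃ * y₁ ∧ R.h0 = x₂ * y₃ ∧ R.h1 = y₂ * x₃ := by
  have a1 := h0_mid hf hg hinj hsurj hex
  have a2 := h0_mid hf.swap hg.swap hinj hsurj hex
  have b1 := h0_left hf hinj
  have b2 := h0_left hf.swap hinj
  have c1 := h0_right hg hsurj
  have c2 := h0_right hg.swap hsurj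
  have d1 := conn hf hg hinj hsurj hex
  have d2 := conn hf.swap hg.swap hinj hsurj hex
  simp only [← h1_eq_h0_swap, swap_D, swap_N] at a2 b2 c2 d2
  rw [d1] at c1
  rw [d2] at c2
  exact ⟨_, _, _, _, _, _, a1, a2, b1, b2, c1, c2⟩

/-- **The Herbrand hexagon, counted.**  For a short exact sequence `0 → A → B → C → 0` of
Herbrand pairs, `h0 B * h1 A * h1 C = h1 B * h0 A * h0 C` (with `0` standing for "infinite"). -/
theorem hexagon (hf : IsHom P Q f) (hg : IsHom Q R g) (hinj : Function.Injective f)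
    (hsurj : Function.Surjective g) (hex : f.range = g.ker) :
    Q.h0 * P.h1 * R.h1 = Q.h1 * P.h0 * R.h0 := by
  have a1 := h0_mid hf hg hinj hsurj hex
  have a2 := h0_mid hf.swap hg.swap hinj hsurj hex
  have b1 := h0_left hf hinj
  have b2 := h0_left hf.swap hinj
  have c1 := h0_right hg hsurj
  have c2 := h0_right hg.swap hsurj
  have d1 := conn hf hg hinj hsurj hex
  have d2 := conn hf.swap hg.swap hinj hsurj hex
  simp only [← h1_eq_h0_swap, swap_D, swap_N] at a2 b2 c2 d2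
  rw [a1, a2, b1, b2, c1, c2, d1, d2]
  ring

/-- The six auxiliary indices of the hexagon are all nonzero as soon as the Herbrand indices of
two of the three groups are nonzero; here: `A` and `C` give `B`. -/
theorem ne_zero_mid (hf : IsHom P Q f) (hg : IsHom Q R g) (hinj : Function.Injective f)
    (hsurj : Function.Surjective g) (hex : f.range = g.ker)
    (hP0 : P.h0 ≠ 0) (hP1 : P.h1 ≠ 0) (hR0 : R.h0 ≠ 0) (hR1 : R.h1 ≠ 0) :
    Q.h0 ≠ 0 ∧ Q.h1 ≠ 0 := by
  have a1 := h0_mid hf hg hinj hsurj hex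
  have a2 := h0_mid hf.swap hg.swap hinj hsurj hex
  have b1 := h0_left hf hinj
  have b2 := h0_left hf.swap hinj
  have c1 := h0_right hg hsurj
  have c2 := h0_right hg.swap hsurj
  simp only [← h1_eq_h0_swap, swap_D, swap_N] at a2 b2 c2
  rw [b1] at hP0
  rw [b2] at hP1
  rw [c1] at hR0
  rw [c2] at hR1
  rw [a1, a2]
  exact ⟨mul_ne_zero (right_ne_zero_of_mul hP0) (left_ne_zero_of_mul hR0),
    mul_ne_zero (right_ne_zero_of_mul hP1) (left_ne_zero_of_mul hR1)⟩

/-- `A` and `B` give `C`. -/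
theorem ne_zero_right (hf : IsHom P Q f) (hg : IsHom Q R g) (hinj : Function.Injective f)
    (hsurj : Function.Surjective g) (hex : f.range = g.ker)
    (hP0 : P.h0 ≠ 0) (hP1 : P.h1 ≠ 0) (hQ0 : Q.h0 ≠ 0) (hQ1 : Q.h1 ≠ 0) :
    R.h0 ≠ 0 ∧ R.h1 ≠ 0 := by
  have a1 := h0_mid hf hg hinj hsurj hex
  have a2 := h0_mid hf.swap hg.swap hinj hsurj hex
  have b1 := h0_left hf hinj
  have b2 := h0_left hf.swap hinj
  have c1 := h0_right hg hsurj
  have c2 := h0_right hg.swap hsurj
  have d1 := conn hf hg hinj hsurj hex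
  have d2 := conn hf.swap hg.swap hinj hsurj hex
  simp only [← h1_eq_h0_swap, swap_D, swap_N] at a2 b2 c2 d2
  rw [b1] at hP0
  rw [b2] at hP1
  rw [a1] at hQ0
  rw [a2] at hQ1
  rw [c1, c2, d1, d2]
  exact ⟨mul_ne_zero (right_ne_zero_of_mul hQ0) (left_ne_zero_of_mul hP1),
    mul_ne_zero (right_ne_zero_of_mul hQ1) (left_ne_zero_of_mul hP0)⟩

/-- `B` and `C` give `A`. -/
theorem ne_zero_left (hf : IsHom P Q f) (hg : IsHom Q R g) (hinj : Function.Injective f)
    (hsurj : Function.Surjective g) (hex : f.range = g.ker)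
    (hQ0 : Q.h0 ≠ 0) (hQ1 : Q.h1 ≠ 0) (hR0 : R.h0 ≠ 0) (hR1 : R.h1 ≠ 0) :
    P.h0 ≠ 0 ∧ P.h1 ≠ 0 := by
  have a1 := h0_mid hf hg hinj hsurj hex
  have a2 := h0_mid hf.swap hg.swap hinj hsurj hex
  have b1 := h0_left hf hinj
  have b2 := h0_left hf.swap hinj
  have c1 := h0_right hg hsurj
  have c2 := h0_right hg.swap hsurj
  have d1 := conn hf hg hinj hsurj hex
  have d2 := conn hf.swap hg.swap hinj hsurj hex
  simp only [← h1_eq_h0_swap, swap_D, swap_N] at a2 b2 c2 d2
  rw [c1, d1] at hR0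
  rw [c2, d2] at hR1
  rw [a1] at hQ0
  rw [a2] at hQ1
  rw [b1, b2]
  exact ⟨mul_ne_zero (right_ne_zero_of_mul hR1) (left_ne_zero_of_mul hQ0),
    mul_ne_zero (right_ne_zero_of_mul hR0) (left_ne_zero_of_mul hQ1)⟩

end exact

/-! ### Finite groups -/

/-- On a finite group the two Herbrand indices agree (and are nonzero). -/
theorem h0_eq_h1_of_finite [Finite A] (P : HerbrandPair A) : P.h0 = P.h1 ∧ P.h0 ≠ 0 := by
  have e0 : Nat.card P.N.range * P.h0 = Nat.card P.D.ker := by
    have := AddSubgroup.relIndex_mul_relIndex ⊥ P.N.range P.D.ker bot_le P.range_N_le_ker_D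
    rwa [AddSubgroup.relIndex_bot_left, AddSubgroup.relIndex_bot_left] at this
  have e1 : Nat.card P.D.range * P.h1 = Nat.card P.N.ker := by
    have := AddSubgroup.relIndex_mul_relIndex ⊥ P.D.range P.N.ker bot_le P.range_D_le_ker_N
    rwa [AddSubgroup.relIndex_bot_left, AddSubgroup.relIndex_bot_left] at this
  have kD : Nat.card P.D.ker * Nat.card P.D.range = Nat.card A := by
    rw [← AddSubgroup.index_ker]; exact AddSubgroup.card_mul_index _
  have kN : Nat.card P.N.ker * Nat.card P.N.range = Nat.card A := by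
    rw [← AddSubgroup.index_ker]; exact AddSubgroup.card_mul_index _
  have hA : Nat.card A ≠ 0 := Nat.card_pos.ne'
  have hDr : Nat.card P.D.range ≠ 0 := Nat.card_pos.ne'
  have hNr : Nat.card P.N.range ≠ 0 := Nat.card_pos.ne'
  have key : (Nat.card P.N.range * Nat.card P.D.range) * P.h0
      = (Nat.card P.N.range * Nat.card P.D.range) * P.h1 := by
    calc (Nat.card P.N.range * Nat.card P.D.range) * P.h0
        = (Nat.card P.N.range * P.h0) * Nat.card P.D.range := by ring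
      _ = Nat.card A := by rw [e0, kD]
      _ = (Nat.card P.D.range * P.h1) * Nat.card P.N.range := by rw [e1, kN]
      _ = (Nat.card P.N.range * Nat.card P.D.range) * P.h1 := by ring
  refine ⟨Nat.eq_of_mul_eq_mul_left (Nat.pos_of_ne_zero (mul_ne_zero hNr hDr)) key, ?_⟩
  intro h
  rw [h, mul_zero] at e0
  rw [← e0, zero_mul] at kD
  exact hA kD.symm

/-! ### Restriction to a stable subgroup and passage to the quotient -/

/-- A subgroup stable under `D` and `N`. -/
structure IsStable (P : HerbrandPair A) (H : AddSubgroup A) : Prop where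
  D_mem : ∀ a ∈ H, P.D a ∈ H
  N_mem : ∀ a ∈ H, P.N a ∈ H

lemma IsStable.le_comap_D {P : HerbrandPair A} {H : AddSubgroup A} (hH : P.IsStable H) :
    H ≤ H.comap P.D := fun a ha => hH.D_mem a ha

lemma IsStable.le_comap_N {P : HerbrandPair A} {H : AddSubgroup A} (hH : P.IsStable H) :
    H ≤ H.comap P.N := fun a ha => hH.N_mem a ha

/-- The Herbrand pair induced on a stable subgroup. -/
def restrict (P : HerbrandPair A) (H : AddSubgroup A) (hH : P.IsStable H) : HerbrandPair H where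
  D := { toFun := fun a => ⟨P.D (a : A), hH.D_mem a a.2⟩
         map_zero' := Subtype.ext (map_zero P.D)
         map_add' := fun a b => Subtype.ext (map_add P.D (a : A) (b : A)) }
  N := { toFun := fun a => ⟨P.N (a : A), hH.N_mem a a.2⟩
         map_zero' := Subtype.ext (map_zero P.N)
         map_add' := fun a b => Subtype.ext (map_add P.N (a : A) (b : A)) }
  D_N := fun a => Subtype.ext (P.D_N a)
  N_D := fun a => Subtype.ext (P.N_D a)

/-- The Herbrand pair induced on the quotient by a stable subgroup. -/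
def quotient (P : HerbrandPair A) (H : AddSubgroup A) (hH : P.IsStable H) :
    HerbrandPair (A ⧸ H) where
  D := QuotientAddGroup.map H H P.D hH.le_comap_D
  N := QuotientAddGroup.map H H P.N hH.le_comap_N
  D_N := by
    intro x
    induction x using QuotientAddGroup.induction_on with
    | H a =>
      rw [QuotientAddGroup.map_mk, QuotientAddGroup.map_mk, P.D_N]
      rfl
  N_D := by
    intro x
    induction x using QuotientAddGroup.induction_on with
    | H a =>
      rw [QuotientAddGroup.map_mk, QuotientAddGroup.map_mk, P.N_D]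
      rfl

lemma isHom_subtype (P : HerbrandPair A) (H : AddSubgroup A) (hH : P.IsStable H) :
    IsHom (P.restrict H hH) P H.subtype :=
  ⟨fun _ => rfl, fun _ => rfl⟩

lemma isHom_mk' (P : HerbrandPair A) (H : AddSubgroup A) (hH : P.IsStable H) :
    IsHom P (P.quotient H hH) (QuotientAddGroup.mk' H) :=
  ⟨fun _ => rfl, fun _ => rfl⟩

/-- The counted hexagon for a stable subgroup `H ≤ A`. -/
theorem hexagon_subgroup (P : HerbrandPair A) (H : AddSubgroup A) (hH : P.IsStable H) :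
    P.h0 * (P.restrict H hH).h1 * (P.quotient H hH).h1
      = P.h1 * (P.restrict H hH).h0 * (P.quotient H hH).h0 :=
  hexagon (P.isHom_subtype H hH) (P.isHom_mk' H hH) H.subtype_injective
    (QuotientAddGroup.mk'_surjective H)
    (by rw [AddSubgroup.range_subtype, QuotientAddGroup.ker_mk'])

/-- **Invariance under finite-index stable subgroups.** -/
theorem finiteIndex (P : HerbrandPair A) (H : AddSubgroup A) (hH : P.IsStable H)
    (hfin : H.index ≠ 0) :
    P.h0 * (P.restrict H hH).h1 = P.h1 * (P.restrict H hH).h0 ∧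
      ((P.h0 ≠ 0 ∧ P.h1 ≠ 0) ↔ ((P.restrict H hH).h0 ≠ 0 ∧ (P.restrict H hH).h1 ≠ 0)) := by
  have : H.FiniteIndex := ⟨hfin⟩
  have : Finite (A ⧸ H) := AddSubgroup.finite_quotient_of_finiteIndex
  obtain ⟨e, e0⟩ := (P.quotient H hH).h0_eq_h1_of_finite
  have hex := P.hexagon_subgroup H hH
  rw [← e] at hex
  have e1 : (P.quotient H hH).h1 ≠ 0 := e ▸ e0
  refine ⟨?_, ?_, ?_⟩
  · have : (P.h0 * (P.restrict H hH).h1) * (P.quotient H hH).h0
        = (P.h1 * (P.restrict H hH).h0) * (P.quotient H hH).h0 := hex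
    exact Nat.eq_of_mul_eq_mul_right (Nat.pos_of_ne_zero e0) this
  · rintro ⟨h0, h1⟩
    exact ne_zero_left (P.isHom_subtype H hH) (P.isHom_mk' H hH) H.subtype_injective
      (QuotientAddGroup.mk'_surjective H)
      (by rw [AddSubgroup.range_subtype, QuotientAddGroup.ker_mk']) h0 h1 e0 e1
  · rintro ⟨h0, h1⟩
    exact ne_zero_mid (P.isHom_subtype H hH) (P.isHom_mk' H hH) H.subtype_injective
      (QuotientAddGroup.mk'_surjective H)
      (by rw [AddSubgroup.range_subtype, QuotientAddGroup.ker_mk']) h0 h1 e0 e1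

/-- If the subgroup `A` of an exact sequence is finite, `B` and `C` have the same Herbrand
quotient, and each index of `B` is finite iff the corresponding index of `C` is. -/
theorem of_finite_left {P : HerbrandPair A} {Q : HerbrandPair B} {R : HerbrandPair C}
    {f : A →+ B} {g : B →+ C} [Finite A]
    (hf : IsHom P Q f) (hg : IsHom Q R g) (hinj : Function.Injective f)
    (hsurj : Function.Surjective g) (hex : f.range = g.ker) :
    Q.h0 * R.h1 = Q.h1 * R.h0 ∧ (Q.h0 ≠ 0 ↔ R.h0 ≠ 0) ∧ (Q.h1 ≠ 0 ↔ R.h1 ≠ 0) := by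
  obtain ⟨x₁, x₂, x₃, y₁, y₂, y₃, hQ0, hQ1, hP0, hP1, hR0, hR1⟩ :=
    hexagon_factor hf hg hinj hsurj hex
  obtain ⟨e, e0⟩ := P.h0_eq_h1_of_finite
  have e1 : P.h1 ≠ 0 := e ▸ e0
  rw [hP0] at e e0
  rw [hP1] at e e1
  have hx1 : x₁ ≠ 0 := right_ne_zero_of_mul e0
  have hx3 : x₃ ≠ 0 := left_ne_zero_of_mul e0
  have hy1 : y₁ ≠ 0 := right_ne_zero_of_mul e1
  have hy3 : y₃ ≠ 0 := left_ne_zero_of_mul e1
  refine ⟨?_, ?_, ?_⟩
  · rw [hQ0, hQ1, hR0, hR1]
    calc x₁ * x₂ * (y₂ * x₃) = (x₃ * x₁) * (x₂ * y₂) := by ring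
      _ = (y₃ * y₁) * (x₂ * y₂) := by rw [e]
      _ = y₁ * y₂ * (x₂ * y₃) := by ring
  · rw [hQ0, hR0]
    simp [hx1, hy3]
  · rw [hQ1, hR1]
    simp [hy1, hx3]

/-- If the quotient `C` of an exact sequence is finite, `A` and `B` have the same Herbrand
quotient, and each index of `B` is finite iff the corresponding index of `A` is. -/
theorem of_finite_right {P : HerbrandPair A} {Q : HerbrandPair B} {R : HerbrandPair C}
    {f : A →+ B} {g : B →+ C} [Finite C]
    (hf : IsHom P Q f) (hg : IsHom Q R g) (hinj : Function.Injective f)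
    (hsurj : Function.Surjective g) (hex : f.range = g.ker) :
    Q.h0 * P.h1 = Q.h1 * P.h0 ∧ (Q.h0 ≠ 0 ↔ P.h0 ≠ 0) ∧ (Q.h1 ≠ 0 ↔ P.h1 ≠ 0) := by
  obtain ⟨x₁, x₂, x₃, y₁, y₂, y₃, hQ0, hQ1, hP0, hP1, hR0, hR1⟩ :=
    hexagon_factor hf hg hinj hsurj hex
  obtain ⟨e, e0⟩ := R.h0_eq_h1_of_finite
  have e1 : R.h1 ≠ 0 := e ▸ e0
  rw [hR0] at e e0
  rw [hR1] at e e1
  have hx2 : x₂ ≠ 0 := left_ne_zero_of_mul e0
  have hy3 : y₃ ≠ 0 := right_ne_zero_of_mul e0
  have hy2 : y₂ ≠ 0 := left_ne_zero_of_mul e1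
  have hx3 : x₃ ≠ 0 := right_ne_zero_of_mul e1
  refine ⟨?_, ?_, ?_⟩
  · rw [hQ0, hQ1, hP0, hP1]
    calc x₁ * x₂ * (y₃ * y₁) = (x₂ * y₃) * (x₁ * y₁) := by ring
      _ = (y₂ * x₃) * (x₁ * y₁) := by rw [e]
      _ = y₁ * y₂ * (x₃ * x₁) := by ring
  · rw [hQ0, hP0]
    simp [hx2, hx3]
  · rw [hQ1, hP1]
    simp [hy2, hy3]

lemma isStable_ker {P : HerbrandPair A} {Q : HerbrandPair B} {f : A →+ B} (hf : IsHom P Q f) :
    P.IsStable f.ker :=
  ⟨fun a ha => by rw [AddMonoidHom.mem_ker, hf.comm_D, AddMonoidHom.mem_ker.mp ha, map_zero],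
   fun a ha => by rw [AddMonoidHom.mem_ker, hf.comm_N, AddMonoidHom.mem_ker.mp ha, map_zero]⟩

lemma isStable_range {P : HerbrandPair A} {Q : HerbrandPair B} {f : A →+ B} (hf : IsHom P Q f) :
    Q.IsStable f.range :=
  ⟨by rintro _ ⟨a, rfl⟩; exact ⟨P.D a, hf.comm_D a⟩,
   by rintro _ ⟨a, rfl⟩; exact ⟨P.N a, hf.comm_N a⟩⟩

/-- **Morphisms with finite kernel and cokernel preserve the Herbrand quotient.** -/
theorem of_finite_ker_coker {P : HerbrandPair A} {Q : HerbrandPair B} {f : A →+ B}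
    (hf : IsHom P Q f) (hker : Finite f.ker) (hcoker : f.range.index ≠ 0) :
    P.h0 * Q.h1 = P.h1 * Q.h0 ∧ (P.h0 ≠ 0 ↔ Q.h0 ≠ 0) ∧ (P.h1 ≠ 0 ↔ Q.h1 ≠ 0) := by
  have : f.range.FiniteIndex := ⟨hcoker⟩
  have : Finite (B ⧸ f.range) := AddSubgroup.finite_quotient_of_finiteIndex
  -- `0 → ker f → A → range f → 0`
  obtain ⟨E1, E1a, E1b⟩ := of_finite_left
    (P := P.restrict f.ker (isStable_ker hf)) (Q := P)
    (R := Q.restrict f.range (isStable_range hf))
    (f := f.ker.subtype) (g := f.rangeRestrict)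
    (P.isHom_subtype _ _)
    ⟨fun a => Subtype.ext (hf.comm_D a), fun a => Subtype.ext (hf.comm_N a)⟩
    f.ker.subtype_injective f.rangeRestrict_surjective
    (by rw [AddSubgroup.range_subtype, AddMonoidHom.ker_rangeRestrict])
  -- `0 → range f → B → B / range f → 0`
  obtain ⟨E2, E2a, E2b⟩ := of_finite_right
    (P := Q.restrict f.range (isStable_range hf)) (Q := Q)
    (R := Q.quotient f.range (isStable_range hf))
    (f := f.range.subtype) (g := QuotientAddGroup.mk' f.range)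
    (Q.isHom_subtype _ _) (Q.isHom_mk' _ _)
    f.range.subtype_injective (QuotientAddGroup.mk'_surjective _)
    (by rw [AddSubgroup.range_subtype, QuotientAddGroup.ker_mk'])
  refine ⟨?_, E1a.trans E2a.symm, E1b.trans E2b.symm⟩
  set i0 := (Q.restrict f.range (isStable_range hf)).h0
  set i1 := (Q.restrict f.range (isStable_range hf)).h1
  by_cases h0 : i0 = 0
  · have hP : P.h0 = 0 := by
      by_contra h; exact (E1a.mp h) h0
    have hQ : Q.h0 = 0 := by
      by_contra h; exact (E2a.mp h) h0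
    rw [hP, hQ, zero_mul, mul_zero]
  by_cases h1 : i1 = 0
  · have hP : P.h1 = 0 := by
      by_contra h; exact (E1b.mp h) h1
    have hQ : Q.h1 = 0 := by
      by_contra h; exact (E2b.mp h) h1
    rw [hP, hQ, zero_mul, mul_zero]
  have key : (i0 * i1) * (P.h0 * Q.h1) = (i0 * i1) * (P.h1 * Q.h0) := by
    calc (i0 * i1) * (P.h0 * Q.h1) = (P.h0 * i1) * (Q.h1 * i0) := by ring
      _ = (P.h1 * i0) * (Q.h0 * i1) := by rw [E1, E2]
      _ = (i0 * i1) * (P.h1 * Q.h0) := by ring
  exact Nat.eq_of_mul_eq_mul_left (Nat.pos_of_ne_zero (mul_ne_zero h0 h1)) key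

end HerbrandPair

end Fermat.Agent.H24
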