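/-
P-ES / ES-B row 350 (helper24): ESB-13a, extension of places along a constant field extension
commutes with restriction along a morphism of function fields, preserves ramification indices,
and places above rational places are rational (from ESB-2c and ESB-3 as hypotheses).
-/
import Fermat.Agent.H29.ESB.Interfaces2
import Fermat.Agent.H23.PlaceBasic

set_option autoImplicit false
set_option linter.style.haveILetI false

noncomputable section

open AlgebraicCurve IntermediateField

namespace Fermat.Agent.H24

open Fermat.Agent.H29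

/-- The ramification index along a morphism is positive. -/
theorem esb13a_ramificationIndexAlong_pos {K F F' : Type*} [Field K] [Field F] [Field F']
    [Algebra K F] [Algebra K F'] (φ : F →ₐ[K] F') (hφ : φ.toRingHom.IsIntegral)
    (w : Place K F') : 0 < w.ramificationIndexAlong φ := by
  letI := algebraAlong φ
  haveI := isScalarTower_along φ
  haveI := isIntegral_along φ hφ
  exact w.ramificationIndex_pos (F := F)

/-- Two places whose order functions are proportional by positive integers are equal, and
the two factors agree. -/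
theorem esb13a_eq_of_ord_proportional {K F : Type*} [Field K] [Field F] [Algebra K F]
    (v w : Place K F) (a b : ℕ) (hb : 0 < b)
    (h : ∀ f : F, (a : ℤ) * v.ord f = (b : ℤ) * w.ord f) : v = w ∧ a = b := by
  have hvw : v = w := by
    apply Fermat.Agent.H23.place_ext_of_ord
    intro f hf
    have h1 : (0 : ℤ) ≤ (a : ℤ) * v.ord f := mul_nonneg (Int.natCast_nonneg a) hf
    rw [h f] at h1
    have hb' : (0 : ℤ) < (b : ℤ) := by exact_mod_cast hb
    exact nonneg_of_mul_nonneg_right h1 hb'
  refine ⟨hvw, ?_⟩
  subst hvw
  obtain ⟨π, -, hπ⟩ := Fermat.Agent.H23.exists_irreducible_ord_one v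
  have := h (π : F)
  rw [hπ, mul_one, mul_one] at this
  exact_mod_cast this

/-- A place of `FK` at which some element of `bc Fk` has nonzero order is in the range of any
unramified extension map of places. -/
theorem esb13a_mem_range_ext (h2c : PlaceExtUniqueStatement) (h3 : RationalPlaceStatement)
    {k K Fk FK : Type} [Field k] [Field K] [Field Fk] [Field FK]
    [Algebra k Fk] [Algebra K FK] [IsAlgClosed k] [CharZero k] [IsAlgClosed K] [CharZero K]
    (E : ConstExt k K Fk FK) (ext : Place k Fk → Place K FK) (hext : IsPlaceExt E ext)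
    (w : Place K FK) (f : Fk) (hf : w.ord (E.bc f) ≠ 0) :
    ∃ v : Place k Fk, (∀ g : Fk, w.ord (E.bc g) = v.ord g) ∧ ext v = w := by
  have hf0 : f ≠ 0 := by
    rintro rfl
    rw [map_zero, Place.ord_zero] at hf
    exact hf rfl
  obtain ⟨v, hv⟩ := h3 k K Fk FK E w ⟨f, hf0, hf⟩
  exact ⟨v, hv, h2c k K Fk FK E v (ext v) w (hext v) hv⟩

/-- **ESB-13a** Extension of places commutes with restriction along a morphism, preserves
ramification indices, and places above rational places are rational. -/
theorem restrictBCStatement (h2c : PlaceExtUniqueStatement) (h3 : RationalPlaceStatement) :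
    RestrictBCStatement := by
  intro k K Fk FK Fk' FK' _ _ _ _ _ _ _ _ _ _ _ _ _ _ E E' φk φK hφk hφK hsq ext ext'
    hext hext'
  -- the key computation, for every place `v'` of `Fk'`
  have key : ∀ v' : Place k Fk',
      (ext' v').restrictAlong φK hφK = ext (v'.restrictAlong φk hφk) ∧
      (ext' v').ramificationIndexAlong φK = v'.ramificationIndexAlong φk := by
    intro v'
    have hid : ∀ f : Fk,
        ((ext' v').ramificationIndexAlong φK : ℤ) * ((ext' v').restrictAlong φK hφK).ord (E.bc f)
          = (v'.ramificationIndexAlong φk : ℤ) * (v'.restrictAlong φk hφk).ord f := by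
      intro f
      rw [← Place.ord_restrictAlong φK hφK (ext' v') (E.bc f), ← hsq.2 f, hext' v' (φk f),
        Place.ord_restrictAlong φk hφk v' f]
    have hek := esb13a_ramificationIndexAlong_pos φk hφk v'
    obtain ⟨π, -, hπ⟩ := Fermat.Agent.H23.exists_irreducible_ord_one (v'.restrictAlong φk hφk)
    have hne : ((ext' v').restrictAlong φK hφK).ord (E.bc (π : Fk)) ≠ 0 := by
      intro h0
      have := hid (π : Fk)
      rw [h0, hπ, mul_zero, mul_one] at this
      have hek' : (v'.ramificationIndexAlong φk : ℤ) ≠ 0 := by exact_mod_cast hek.ne'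
      exact hek' this.symm
    obtain ⟨v1, hv1, hv1e⟩ := esb13a_mem_range_ext h2c h3 E ext hext _ (π : Fk) hne
    have hprop : ∀ f : Fk,
        ((ext' v').ramificationIndexAlong φK : ℤ) * v1.ord f
          = (v'.ramificationIndexAlong φk : ℤ) * (v'.restrictAlong φk hφk).ord f := by
      intro f
      rw [← hv1 f]
      exact hid f
    obtain ⟨h1, h2⟩ := esb13a_eq_of_ord_proportional v1 (v'.restrictAlong φk hφk) _ _ hek hprop
    exact ⟨by rw [← hv1e, h1], h2⟩
  refine ⟨fun v' => (key v').1, fun v' => (key v').2, ?_⟩
  rintro w' ⟨v, hv⟩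
  obtain ⟨π, -, hπ⟩ := Fermat.Agent.H23.exists_irreducible_ord_one v
  have he := esb13a_ramificationIndexAlong_pos φK hφK w'
  have hne : w'.ord (E'.bc (φk (π : Fk))) ≠ 0 := by
    rw [hsq.2, Place.ord_restrictAlong φK hφK w' (E.bc (π : Fk)), ← hv, hext v, hπ, mul_one]
    exact_mod_cast he.ne'
  obtain ⟨v1, -, hv1e⟩ := esb13a_mem_range_ext h2c h3 E' ext' hext' w' (φk (π : Fk)) hne
  exact ⟨v1, hv1e⟩

end Fermat.Agent.H24

end
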