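/-
P-S14 / C4c (helper24): partial summation.  If the partial sums of `a : ℕ → ℂ` are
`≤ B * n ^ r` with `0 ≤ r < 1`, then the `L`-series of `a` is bounded on the real interval `(1, 2]`.
Imports Mathlib only.
-/
import Mathlib.NumberTheory.LSeries.SumCoeff

set_option autoImplicit false

namespace Fermat.Agent.H24

open Finset MeasureTheory Filter Topology

/-- Partial summation bound for an `L`-series with small partial sums. -/
theorem norm_LSeries_le_of_sum_le (a : ℕ → ℂ) {r B : ℝ} (hr : 0 ≤ r) (hr1 : r < 1)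
    (hB : ∀ n : ℕ, ‖∑ k ∈ Icc 1 n, a k‖ ≤ B * (n : ℝ) ^ r) {s : ℝ} (hs : 1 < s) (hs2 : s ≤ 2)
    (hS : LSeriesSummable a (s : ℂ)) : ‖LSeries a (s : ℂ)‖ ≤ 2 * B / (1 - r) := by
  have hB0 : 0 ≤ B := by
    have := hB 1
    simp only [Nat.cast_one, Real.one_rpow, mul_one] at this
    exact (norm_nonneg _).trans this
  have hO : (fun n : ℕ ↦ ∑ k ∈ Icc 1 n, a k) =O[atTop] fun n : ℕ ↦ (n : ℝ) ^ r := by
    refine Asymptotics.isBigO_of_le' (c := B) _ fun n ↦ ?_
    rw [Real.norm_of_nonneg (Real.rpow_nonneg (Nat.cast_nonneg n) r)]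
    exact hB n
  have hsre : r < (s : ℂ).re := by simpa using hr1.trans hs
  rw [LSeries_eq_mul_integral a hr hsre hS hO]
  -- bound the integral
  have hbound : ∀ t ∈ Set.Ioi (1 : ℝ),
      ‖(∑ k ∈ Icc 1 ⌊t⌋₊, a k) * (t : ℂ) ^ (-((s : ℂ) + 1))‖ ≤ B * t ^ (r - s - 1) := by
    intro t ht
    have ht0 : 0 < t := zero_lt_one.trans ht
    rw [norm_mul, Complex.norm_cpow_eq_rpow_re_of_pos ht0]
    have h1 : (-((s : ℂ) + 1)).re = -s - 1 := by simp; ring
    rw [h1]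
    have h2 : ‖∑ k ∈ Icc 1 ⌊t⌋₊, a k‖ ≤ B * t ^ r := by
      refine (hB _).trans ?_
      gcongr
      exact Nat.floor_le ht0.le
    calc ‖∑ k ∈ Icc 1 ⌊t⌋₊, a k‖ * t ^ (-s - 1) ≤ B * t ^ r * t ^ (-s - 1) := by gcongr
      _ = B * t ^ (r - s - 1) := by
        rw [mul_assoc, ← Real.rpow_add ht0]
        congr 2
        ring
  have hint : IntegrableOn (fun t : ℝ ↦ B * t ^ (r - s - 1)) (Set.Ioi 1) :=
    (integrableOn_Ioi_rpow_of_lt (by linarith) zero_lt_one).const_mul B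
  have hnorm : ‖∫ t in Set.Ioi (1 : ℝ), (∑ k ∈ Icc 1 ⌊t⌋₊, a k) * (t : ℂ) ^ (-((s : ℂ) + 1))‖ ≤
      ∫ t in Set.Ioi (1 : ℝ), B * t ^ (r - s - 1) :=
    norm_integral_le_of_norm_le hint
      ((ae_restrict_iff' measurableSet_Ioi).mpr (Eventually.of_forall hbound))
  have hval : ∫ t in Set.Ioi (1 : ℝ), B * t ^ (r - s - 1) = B / (s - r) := by
    rw [integral_const_mul, integral_Ioi_rpow_of_lt (by linarith) zero_lt_one]
    simp only [Real.one_rpow]
    have h3 : r - s - 1 + 1 = -(s - r) := by ring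
    rw [h3]
    have h4 : s - r ≠ 0 := by linarith
    field_simp
  rw [norm_mul]
  have hs_norm : ‖(s : ℂ)‖ = s := by
    rw [Complex.norm_real, Real.norm_of_nonneg (by linarith)]
  rw [hs_norm]
  calc s * ‖∫ t in Set.Ioi (1 : ℝ), (∑ k ∈ Icc 1 ⌊t⌋₊, a k) * (t : ℂ) ^ (-((s : ℂ) + 1))‖
      ≤ 2 * (B / (s - r)) := by
        rw [hval] at hnorm
        have : 0 ≤ B / (s - r) := div_nonneg hB0 (by linarith)
        exact mul_le_mul hs2 hnorm (norm_nonneg _) (by norm_num)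
    _ ≤ 2 * B / (1 - r) := by
        rw [mul_div_assoc]
        gcongr

end Fermat.Agent.H24
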