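/-
P-S14 / C4d core (helper24): splitting of primes in a Kummer extension `M = K(γ^{1/p})`.
If `γ ≡ x ^ p` modulo a prime `v` of `𝓞 K` not containing `p`, then there are `p` distinct primes
of `𝓞 M` above `v`, all of the same absolute norm as `v`.
Imports Mathlib only.
-/
import Mathlib

set_option autoImplicit false
set_option linter.unusedSectionVars false

namespace Fermat.Agent.H24

open Polynomial NumberField

section minpoly

variable (p : ℕ) [hp : Fact p.Prime] (K M : Type*) [Field K] [Field M] [Algebra K M]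

/-- The minimal polynomial over `K` of a `p`-th root of a non-`p`-th power. -/
theorem kummer_minpoly_field (γ : K) (y : M) (hy : y ^ p = algebraMap K M γ)
    (hnp : ¬ ∃ b : K, b ^ p = γ) : minpoly K y = X ^ p - C γ := by
  have hirr : Irreducible (X ^ p - C γ : K[X]) :=
    X_pow_sub_C_irreducible_of_prime hp.out (fun b hb => hnp ⟨b, hb⟩)
  have hroot : aeval y (X ^ p - C γ : K[X]) = 0 := by
    simp [hy]
  exact (minpoly.eq_of_irreducible_of_monic hirr hroot
    (monic_X_pow_sub_C _ hp.out.ne_zero)).symm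

variable [NumberField K] [NumberField M]

/-- The minimal polynomial over `𝓞 K` of a `p`-th root of a non-`p`-th power. -/
theorem kummer_minpoly_int (γ : 𝓞 K) (y : 𝓞 M) (hy : y ^ p = algebraMap (𝓞 K) (𝓞 M) γ)
    (hnp : ¬ ∃ b : K, b ^ p = (γ : K)) : minpoly (𝓞 K) y = X ^ p - C γ := by
  have hy' : (y : M) ^ p = algebraMap K M (γ : K) := by
    have := congrArg (algebraMap (𝓞 M) M) hy
    rw [map_pow, ← IsScalarTower.algebraMap_apply (𝓞 K) (𝓞 M) M,
      IsScalarTower.algebraMap_apply (𝓞 K) K M] at this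
    exact this
  have hK := kummer_minpoly_field p K M (γ : K) (y : M) hy' hnp
  have hint : IsIntegral (𝓞 K) y := Algebra.IsIntegral.isIntegral y
  have h1 := minpoly.isIntegrallyClosed_eq_field_fractions K M hint
  have h2 : (minpoly (𝓞 K) y).map (algebraMap (𝓞 K) K) =
      (X ^ p - C γ : (𝓞 K)[X]).map (algebraMap (𝓞 K) K) := by
    rw [← h1]
    simpa using hK
  exact Polynomial.map_injective _ (FaithfulSMul.algebraMap_injective (𝓞 K) K) h2

/-- For every root `c` of `X ^ p - γ` modulo `v` there is a prime of `𝓞 M` above `v` containing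
`y - c`. -/
theorem exists_prime_over_of_root (γ : 𝓞 K) (y : 𝓞 M)
    (hy : y ^ p = algebraMap (𝓞 K) (𝓞 M) γ) (hnp : ¬ ∃ b : K, b ^ p = (γ : K))
    (v : Ideal (𝓞 K)) [hv : v.IsPrime] (c : 𝓞 K) (hc : γ - c ^ p ∈ v) :
    ∃ Q : Ideal (𝓞 M), Q.IsPrime ∧ Q.comap (algebraMap (𝓞 K) (𝓞 M)) = v ∧
      y - algebraMap (𝓞 K) (𝓞 M) c ∈ Q := by
  have hmin := kummer_minpoly_int p K M γ y hy hnp
  have hint : IsIntegral (𝓞 K) y := Algebra.IsIntegral.isIntegral y
  let A := Algebra.adjoin (𝓞 K) ({y} : Set (𝓞 M))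
  let e : AdjoinRoot (minpoly (𝓞 K) y) ≃ₐ[𝓞 K] A := minpoly.equivAdjoin hint
  have h0 : (minpoly (𝓞 K) y).eval₂ (Ideal.Quotient.mk v) (Ideal.Quotient.mk v c) = 0 := by
    rw [hmin, eval₂_sub, eval₂_pow, eval₂_X, eval₂_C, ← map_pow, ← map_sub,
      Ideal.Quotient.eq_zero_iff_mem]
    have : c ^ p - γ = -(γ - c ^ p) := by ring
    rw [this]
    exact v.neg_mem hc
  let ψ₀ : AdjoinRoot (minpoly (𝓞 K) y) →+* (𝓞 K) ⧸ v :=
    AdjoinRoot.lift (Ideal.Quotient.mk v) (Ideal.Quotient.mk v c) h0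
  let ψ : A →+* (𝓞 K) ⧸ v := ψ₀.comp (e.symm : A →+* AdjoinRoot (minpoly (𝓞 K) y))
  have hψ_alg : ∀ r : 𝓞 K, ψ (algebraMap (𝓞 K) A r) = Ideal.Quotient.mk v r := by
    intro r
    simp only [ψ, ψ₀, RingHom.comp_apply, RingHom.coe_coe, AlgEquiv.commutes]
    rw [AdjoinRoot.algebraMap_eq, AdjoinRoot.lift_of]
  have hψ_y : ψ ⟨y, Algebra.self_mem_adjoin_singleton (𝓞 K) y⟩ = Ideal.Quotient.mk v c := by
    have h1 : e (AdjoinRoot.root (minpoly (𝓞 K) y)) =
        ⟨y, Algebra.self_mem_adjoin_singleton (𝓞 K) y⟩ := by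
      apply Subtype.ext
      exact AdjoinRoot.Minpoly.coe_toAdjoin_mk_X
    have h2 : e.symm ⟨y, Algebra.self_mem_adjoin_singleton (𝓞 K) y⟩ =
        AdjoinRoot.root (minpoly (𝓞 K) y) := by
      rw [AlgEquiv.symm_apply_eq, h1]
    simp only [ψ, ψ₀, RingHom.comp_apply, RingHom.coe_coe, h2, AdjoinRoot.lift_root]
  have : (RingHom.ker ψ).IsPrime := RingHom.ker_isPrime ψ
  have : Algebra.IsIntegral A (𝓞 M) := Algebra.IsIntegral.tower_top (R := 𝓞 K)
  obtain ⟨Q, -, hQp, hQ⟩ := Ideal.exists_ideal_over_prime_of_isIntegral (RingHom.ker ψ)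
    (⊥ : Ideal (𝓞 M)) (by
      rw [← RingHom.ker_eq_comap_bot]
      have : Function.Injective (algebraMap A (𝓞 M)) := Subtype.val_injective
      rw [(RingHom.injective_iff_ker_eq_bot _).mp this]
      exact bot_le)
  refine ⟨Q, hQp, ?_, ?_⟩
  · have h1 : Q.comap (algebraMap (𝓞 K) (𝓞 M)) =
        (Q.comap (algebraMap A (𝓞 M))).comap (algebraMap (𝓞 K) A) := by
      rw [Ideal.comap_comap]
      rfl
    rw [h1, hQ]
    ext r
    rw [Ideal.mem_comap, RingHom.mem_ker, hψ_alg, Ideal.Quotient.eq_zero_iff_mem]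
  · have h1 : (⟨y, Algebra.self_mem_adjoin_singleton (𝓞 K) y⟩ - algebraMap (𝓞 K) A c : A) ∈
        RingHom.ker ψ := by
      rw [RingHom.mem_ker, map_sub, hψ_y, hψ_alg, sub_self]
    rw [← hQ, Ideal.mem_comap] at h1
    exact h1

end minpoly

section main

variable (p : ℕ) [hp : Fact p.Prime] (K M : Type*) [Field K] [NumberField K] [Field M]
  [NumberField M] [Algebra K M]

/-- The image of a primitive `p`-th root of unity modulo a prime not containing `p` is still a
primitive `p`-th root of unity. -/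
theorem isPrimitiveRoot_quotient_mk (ζ : 𝓞 K) (hζ : IsPrimitiveRoot ζ p)
    (v : Ideal (𝓞 K)) [v.IsPrime] (hpv : (p : 𝓞 K) ∉ v) :
    IsPrimitiveRoot (Ideal.Quotient.mk v ζ) p := by
  have h1 : (Ideal.Quotient.mk v ζ) ^ p = 1 := by
    rw [← map_pow, hζ.pow_eq_one, map_one]
  have h2 : Ideal.Quotient.mk v ζ ≠ 1 := by
    intro h
    apply hpv
    have hsum : ∑ i ∈ Finset.range p, ζ ^ i = 0 := hζ.geom_sum_eq_zero hp.out.one_lt
    have := congrArg (Ideal.Quotient.mk v) hsum
    rw [map_sum] at this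
    simp only [map_pow, h, one_pow, Finset.sum_const, Finset.card_range, nsmul_eq_mul, mul_one,
      map_zero] at this
    rw [← Ideal.Quotient.eq_zero_iff_mem, map_natCast]
    exact this
  have h3 : orderOf (Ideal.Quotient.mk v ζ) = p := orderOf_eq_prime h1 h2
  rw [← h3]
  exact IsPrimitiveRoot.orderOf _

/-- **C4d core.** Primes `v` of `𝓞 K` (not containing `p`) modulo which `γ` is a `p`-th power
split completely in `M = K(γ^{1/p})`. -/
theorem exists_primes_over_of_pow_mod (hdeg : Module.finrank K M = p)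
    (ζ : 𝓞 K) (hζ : IsPrimitiveRoot ζ p) (γ : 𝓞 K) (hγ : IsUnit γ) (y : 𝓞 M)
    (hy : y ^ p = algebraMap (𝓞 K) (𝓞 M) γ) (hnp : ¬ ∃ b : K, b ^ p = (γ : K))
    (v : Ideal (𝓞 K)) (hv : v.IsPrime) (hv0 : v ≠ ⊥) (hpv : (p : 𝓞 K) ∉ v)
    (x : 𝓞 K) (hx : γ - x ^ p ∈ v) :
    ∃ Q : Fin p → Ideal (𝓞 M), Function.Injective Q ∧
      ∀ i, (Q i).IsPrime ∧ Q i ≠ ⊥ ∧ (Q i).comap (algebraMap (𝓞 K) (𝓞 M)) = v ∧
        Ideal.absNorm (Q i) = Ideal.absNorm v := by
  classical
  have := hv
  have hvmax : v.IsMaximal := hv.isMaximal hv0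
  have hxv : x ∉ v := by
    intro hxv
    have h1 : γ ∈ v := by
      have : γ = (γ - x ^ p) + x ^ p := by ring
      rw [this]
      exact v.add_mem hx (v.pow_mem_of_mem hxv p hp.out.pos)
    exact hv.ne_top (Ideal.eq_top_of_isUnit_mem v h1 hγ)
  let c : Fin p → 𝓞 K := fun i => x * ζ ^ (i : ℕ)
  have hc : ∀ i, γ - (c i) ^ p ∈ v := by
    intro i
    have : (c i) ^ p = x ^ p := by
      simp only [c, mul_pow, ← pow_mul]
      rw [mul_comm (i : ℕ) p, pow_mul, hζ.pow_eq_one, one_pow, mul_one]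
    rw [this]
    exact hx
  have hcinj : ∀ i j : Fin p, c i - c j ∈ v → i = j := by
    intro i j hij
    have hprim := isPrimitiveRoot_quotient_mk p K ζ hζ v hpv
    have h1 : Ideal.Quotient.mk v (c i) = Ideal.Quotient.mk v (c j) := by
      rw [← sub_eq_zero, ← map_sub, Ideal.Quotient.eq_zero_iff_mem]
      exact hij
    simp only [c, map_mul, map_pow] at h1
    have hx0 : Ideal.Quotient.mk v x ≠ 0 := by
      rw [Ne, Ideal.Quotient.eq_zero_iff_mem]
      exact hxv
    have h2 := mul_left_cancel₀ hx0 h1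
    exact Fin.ext (hprim.pow_inj i.2 j.2 h2)
  choose Q hQ using fun i => exists_prime_over_of_root p K M γ y hy hnp v (c i) (hc i)
  have hQinj : Function.Injective Q := by
    intro i j hij
    apply hcinj
    have h1 : y - algebraMap (𝓞 K) (𝓞 M) (c j) ∈ Q i := by
      rw [hij]
      exact (hQ j).2.2
    have h2 := (Q i).sub_mem h1 (hQ i).2.2
    have h3 : (y - algebraMap (𝓞 K) (𝓞 M) (c j)) - (y - algebraMap (𝓞 K) (𝓞 M) (c i)) =
        algebraMap (𝓞 K) (𝓞 M) (c i - c j) := by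
      rw [map_sub]
      ring
    rw [h3, ← Ideal.mem_comap, (hQ i).2.1] at h2
    exact h2
  refine ⟨Q, hQinj, fun i => ⟨(hQ i).1, ?_, (hQ i).2.1, ?_⟩⟩
  · intro h
    apply hv0
    rw [← (hQ i).2.1, h]
    rw [← RingHom.ker_eq_comap_bot]
    exact (RingHom.injective_iff_ker_eq_bot _).mp (FaithfulSMul.algebraMap_injective (𝓞 K) (𝓞 M))
  · -- the inertia degree is one
    have hprime : ∀ j, (Q j).IsPrime := fun j => (hQ j).1
    have hover : ∀ j, (Q j).LiesOver v := fun j => ⟨((hQ j).2.1).symm⟩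
    let q : Fin p → v.primesOver (𝓞 M) := fun j => ⟨Q j, hprime j, hover j⟩
    have hqinj : Function.Injective q := by
      intro j k hjk
      apply hQinj
      exact congrArg Subtype.val hjk
    let g : v.primesOver (𝓞 M) → ℕ := fun P => P.1.ramificationIdx (𝓞 K) * P.1.inertiaDeg (𝓞 K)
    have hg1 : ∀ P : v.primesOver (𝓞 M), 1 ≤ g P := by
      intro P
      have : P.1.IsPrime := P.2.1
      exact Nat.one_le_iff_ne_zero.mpr (Nat.mul_ne_zero (Ideal.ramificationIdx_pos P.1 (𝓞 K)).ne'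
        (Ideal.inertiaDeg_pos P.1 (𝓞 K)).ne')
    have hsum : ∑ P : v.primesOver (𝓞 M), g P = p := by
      rw [Ideal.sum_ramification_inertia_eq_finrank v (𝓞 M), ← hdeg]
      exact (IsFractionRing.finrank_eq (𝓞 K) K (𝓞 M) M).symm
    have hgi : g (q i) ≤ 1 := by
      let s : Finset (v.primesOver (𝓞 M)) := Finset.univ.image q
      have hs : s.card = p := by
        rw [Finset.card_image_of_injective _ hqinj, Finset.card_univ, Fintype.card_fin]
      have hmem : q i ∈ s := Finset.mem_image_of_mem q (Finset.mem_univ i)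
      have h1 : ∑ P ∈ s, g P ≤ p := by
        rw [← hsum]
        exact Finset.sum_le_sum_of_subset (Finset.subset_univ s)
      have h2 : ∑ P ∈ s, g P = g (q i) + ∑ P ∈ s.erase (q i), g P :=
        (Finset.add_sum_erase s g hmem).symm
      have h3 : (s.erase (q i)).card ≤ ∑ P ∈ s.erase (q i), g P := by
        rw [Finset.card_eq_sum_ones]
        exact Finset.sum_le_sum fun P _ => hg1 P
      rw [Finset.card_erase_of_mem hmem, hs] at h3
      have hp1 : 1 ≤ p := hp.out.one_le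
      omega
    have hf : (Q i).inertiaDeg (𝓞 K) = 1 := by
      have h1 : (Q i).ramificationIdx (𝓞 K) * (Q i).inertiaDeg (𝓞 K) = 1 :=
        le_antisymm hgi (hg1 (q i))
      exact Nat.eq_one_of_mul_eq_one_left h1
    have := hprime i
    have := hover i
    rw [← Ideal.absNorm_pow_inertiaDeg v (Q i), hf, pow_one]

end main

end Fermat.Agent.H24
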