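/-
P-CFT / WP3 units block (U2), part 2: Herbrand pairs of cyclic actions.  Mathlib only.

* `HerbrandPair.ofEnd σ n h`: for an endomorphism `σ` with `σ ^ n = 1`,
  `D = σ - 1`, `N = 1 + σ + ⋯ + σ^(n-1)`;
* trivial action: `h0 = [A : n A]`, `h1 = #A[n]`; for `A = ℤ`: `h0 = n`, `h1 = 1`.
-/
import Fermat.Agent.H24.Herbrand

set_option autoImplicit false

namespace Fermat.Agent.H24

namespace HerbrandPair

variable {A B : Type*} [AddCommGroup A] [AddCommGroup B]

/-- The Herbrand pair of an endomorphism `σ` with `σ ^ n = 1`: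
`D = σ - 1` and `N = 1 + σ + ⋯ + σ ^ (n - 1)`. -/
def ofEnd (σ : AddMonoid.End A) (n : ℕ) (h : σ ^ n = 1) : HerbrandPair A where
  D := (σ - 1 : AddMonoid.End A)
  N := (∑ i ∈ Finset.range n, σ ^ i : AddMonoid.End A)
  D_N := fun a => by
    have e : (σ - 1) * ∑ i ∈ Finset.range n, σ ^ i = 0 := by
      rw [mul_geom_sum, h, sub_self]
    exact DFunLike.congr_fun e a
  N_D := fun a => by
    have e : (∑ i ∈ Finset.range n, σ ^ i) * (σ - 1) = 0 := by
      rw [geom_sum_mul, h, sub_self]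
    exact DFunLike.congr_fun e a

lemma ofEnd_D (σ : AddMonoid.End A) (n : ℕ) (h : σ ^ n = 1) :
    (ofEnd σ n h).D = (σ - 1 : AddMonoid.End A) := rfl

lemma ofEnd_N (σ : AddMonoid.End A) (n : ℕ) (h : σ ^ n = 1) :
    (ofEnd σ n h).N = (∑ i ∈ Finset.range n, σ ^ i : AddMonoid.End A) := rfl

lemma ofEnd_D_apply (σ : AddMonoid.End A) (n : ℕ) (h : σ ^ n = 1) (a : A) :
    (ofEnd σ n h).D a = σ a - a := by
  rw [ofEnd_D]
  rfl

lemma ofEnd_N_apply (σ : AddMonoid.End A) (n : ℕ) (h : σ ^ n = 1) (a : A) :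
    (ofEnd σ n h).N a = ∑ i ∈ Finset.range n, (σ ^ i) a := by
  rw [ofEnd_N]
  exact AddMonoidHom.finsetSum_apply _ _ _

/-- An additive map intertwining `σ` and `τ` is a morphism of the associated Herbrand pairs. -/
lemma isHom_ofEnd {σ : AddMonoid.End A} {τ : AddMonoid.End B} {n : ℕ} (hσ : σ ^ n = 1)
    (hτ : τ ^ n = 1) (f : A →+ B) (hf : ∀ a, f (σ a) = τ (f a)) :
    IsHom (ofEnd σ n hσ) (ofEnd τ n hτ) f := by
  have hpow : ∀ (i : ℕ) (a : A), f ((σ ^ i) a) = (τ ^ i) (f a) := by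
    intro i
    induction i with
    | zero => intro a; rfl
    | succ i ih =>
      intro a
      rw [pow_succ, pow_succ]
      show f ((σ ^ i) (σ a)) = (τ ^ i) (τ (f a))
      rw [ih, hf]
  refine ⟨fun a => ?_, fun a => ?_⟩
  · rw [ofEnd_D_apply, ofEnd_D_apply, map_sub, hf]
  · rw [ofEnd_N_apply, ofEnd_N_apply, map_sum]
    exact Finset.sum_congr rfl fun i _ => hpow i a

/-- The Herbrand pair of the trivial action: `D = 0`, `N = n`. -/
def trivial (A : Type*) [AddCommGroup A] (n : ℕ) : HerbrandPair A :=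
  ofEnd (1 : AddMonoid.End A) n (one_pow n)

lemma trivial_D_apply (n : ℕ) (a : A) : (trivial A n).D a = 0 := by
  show (ofEnd (1 : AddMonoid.End A) n (one_pow n)).D a = 0
  rw [ofEnd_D_apply]
  exact sub_self a

lemma trivial_N_apply (n : ℕ) (a : A) : (trivial A n).N a = n • a := by
  show (ofEnd (1 : AddMonoid.End A) n (one_pow n)).N a = n • a
  rw [ofEnd_N_apply]
  simp

/-- `ℤ` with trivial action: `h0 = n`. -/
theorem h0_trivial_int (n : ℕ) : (trivial ℤ n).h0 = n := by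
  have hker : (trivial ℤ n).D.ker = ⊤ := by
    ext a
    simp [AddMonoidHom.mem_ker, trivial_D_apply]
  have hrange : (trivial ℤ n).N.range = AddSubgroup.zmultiples (n : ℤ) := by
    ext a
    constructor
    · rintro ⟨b, rfl⟩
      rw [trivial_N_apply, AddSubgroup.mem_zmultiples_iff]
      exact ⟨b, by simp [mul_comm]⟩
    · intro ha
      rw [AddSubgroup.mem_zmultiples_iff] at ha
      obtain ⟨b, rfl⟩ := ha
      exact ⟨b, by rw [trivial_N_apply]; simp [mul_comm]⟩
  rw [h0, hker, AddSubgroup.relIndex_top_right, hrange, Int.index_zmultiples]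
  simp

/-- `ℤ` with trivial action: `h1 = 1` (for `n ≠ 0`). -/
theorem h1_trivial_int (n : ℕ) (hn : n ≠ 0) : (trivial ℤ n).h1 = 1 := by
  have hker : (trivial ℤ n).N.ker = ⊥ := by
    ext a
    rw [AddMonoidHom.mem_ker, trivial_N_apply, AddSubgroup.mem_bot]
    simp [hn]
  rw [h1, hker, AddSubgroup.relIndex_bot_right]

end HerbrandPair

end Fermat.Agent.H24
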