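/-
P-CFT / WP3 units block (U2), part 3: Herbrand indices of permutation lattices.  Mathlib only.

For a permutation `e` of a finite type `ι` with `e ^ n = 1`, `n ≠ 0`, acting on `ι → ℤ` by
`f ↦ f ∘ e`, the Herbrand pair `permPair e n` (`D = σ - 1`, `N = 1 + ⋯ + σ^(n-1)`) has
`h1 = 1` and `h0 = ∏ over the cycles c of e, n / (length of c)`.
-/
import Fermat.Agent.H24.HerbrandCyclic

set_option autoImplicit false

open Function Finset

namespace Fermat.Agent.H24

/-- A sum over `d * m` consecutive values of a `d`-periodic function. -/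
theorem sum_range_mul_of_periodic (g : ℕ → ℤ) (d m : ℕ) (hg : ∀ k, g (k + d) = g k) :
    ∑ k ∈ range (d * m), g k = m * ∑ k ∈ range d, g k := by
  have hper : ∀ j k, g (d * j + k) = g k := by
    intro j
    induction j with
    | zero => intro k; rw [Nat.mul_zero, Nat.zero_add]
    | succ j ih =>
      intro k
      rw [Nat.mul_succ, Nat.add_assoc, Nat.add_comm d k, ← Nat.add_assoc, hg, ih]
  induction m with
  | zero => simp
  | succ m ih =>
    rw [Nat.mul_succ, Finset.sum_range_add, ih]
    simp only [hper]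
    push_cast
    ring

section perm

variable {ι : Type*} (e : Equiv.Perm ι)

/-- The endomorphism `f ↦ f ∘ e` of `ι → ℤ`. -/
def permEnd : AddMonoid.End (ι → ℤ) where
  toFun f := fun i => f (e i)
  map_zero' := rfl
  map_add' _ _ := rfl

lemma permEnd_apply (f : ι → ℤ) (i : ι) : permEnd e f i = f (e i) := rfl

lemma permEnd_pow_apply (k : ℕ) (f : ι → ℤ) (i : ι) :
    (permEnd e ^ k) f i = f (e^[k] i) := by
  induction k generalizing f i with
  | zero => rfl
  | succ k ih =>
    rw [pow_succ]
    show (permEnd e ^ k) (permEnd e f) i = _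
    rw [ih, permEnd_apply, Function.iterate_succ_apply']

lemma permEnd_pow_eq_one {n : ℕ} (hn : e ^ n = 1) : permEnd e ^ n = 1 := by
  refine DFunLike.ext _ _ fun f => funext fun i => ?_
  have h := permEnd_pow_apply e n f i
  rw [Equiv.Perm.iterate_eq_pow, hn] at h
  exact h

/-- The Herbrand pair of the permutation lattice `ι → ℤ`. -/
def permPair (n : ℕ) (hn : e ^ n = 1) : HerbrandPair (ι → ℤ) :=
  HerbrandPair.ofEnd (permEnd e) n (permEnd_pow_eq_one e hn)

variable {e} {n : ℕ} (hn : e ^ n = 1)

lemma permPair_D_apply (f : ι → ℤ) (i : ι) : (permPair e n hn).D f i = f (e i) - f i := by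
  show (HerbrandPair.ofEnd (permEnd e) n _).D f i = _
  rw [HerbrandPair.ofEnd_D_apply]
  rfl

lemma permPair_N_apply (f : ι → ℤ) (i : ι) :
    (permPair e n hn).N f i = ∑ k ∈ range n, f (e^[k] i) := by
  show (HerbrandPair.ofEnd (permEnd e) n _).N f i = _
  rw [HerbrandPair.ofEnd_N_apply, Finset.sum_apply]
  exact Finset.sum_congr rfl fun k _ => permEnd_pow_apply e k f i

include hn in
lemma perm_isPeriodicPt (x : ι) : IsPeriodicPt e n x := by
  show e^[n] x = x
  rw [Equiv.Perm.iterate_eq_pow, hn]
  rfl

include hn in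
lemma perm_minimalPeriod_dvd (x : ι) : minimalPeriod e x ∣ n :=
  (perm_isPeriodicPt hn x).minimalPeriod_dvd

include hn in
lemma perm_minimalPeriod_pos (hn0 : n ≠ 0) (x : ι) : 0 < minimalPeriod e x :=
  (perm_isPeriodicPt hn x).minimalPeriod_pos (Nat.pos_of_ne_zero hn0)

include hn in
lemma perm_mem_periodicPts (hn0 : n ≠ 0) (x : ι) : x ∈ periodicPts e :=
  minimalPeriod_pos_iff_mem_periodicPts.mp (perm_minimalPeriod_pos hn hn0 x)

include hn in
/-- the norm is `n / d` times the sum over one period -/
lemma permPair_N_apply' (f : ι → ℤ) (x : ι) :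
    (permPair e n hn).N f x =
      ((n / minimalPeriod e x : ℕ) : ℤ) * ∑ k ∈ range (minimalPeriod e x), f (e^[k] x) := by
  rw [permPair_N_apply]
  obtain ⟨m, hm⟩ := perm_minimalPeriod_dvd hn x
  by_cases hd : minimalPeriod e x = 0
  · rw [hd, Nat.zero_mul] at hm
    subst hm
    simp
  have hdiv : n / minimalPeriod e x = m := by
    rw [hm, Nat.mul_div_cancel_left _ (Nat.pos_of_ne_zero hd)]
  rw [hdiv]
  conv_lhs => rw [hm]
  refine sum_range_mul_of_periodic (fun k => f (e^[k] x)) _ m fun k => ?_
  show f (e^[k + minimalPeriod e x] x) = f (e^[k] x)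
  rw [iterate_add_minimalPeriod_eq]

include hn in
/-- if `N f = 0` then the sum of `f` over one period of any point vanishes -/
lemma perm_sum_period_eq_zero (hn0 : n ≠ 0) {f : ι → ℤ} (hf : (permPair e n hn).N f = 0)
    (x : ι) : ∑ k ∈ range (minimalPeriod e x), f (e^[k] x) = 0 := by
  have h := permPair_N_apply' hn f x
  rw [hf] at h
  have hpos : 0 < n / minimalPeriod e x :=
    Nat.div_pos (Nat.le_of_dvd (Nat.pos_of_ne_zero hn0) (perm_minimalPeriod_dvd hn x))
      (perm_minimalPeriod_pos hn hn0 x)
  have h' : ((n / minimalPeriod e x : ℕ) : ℤ) * ∑ k ∈ range (minimalPeriod e x), f (e^[k] x)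
      = 0 := h.symm
  rcases mul_eq_zero.mp h' with h1 | h1
  · exact absurd (by exact_mod_cast h1) hpos.ne'
  · exact h1

/-- partial sums along the cycle of `x` -/
def permPartial (e : Equiv.Perm ι) (f : ι → ℤ) (x : ι) (k : ℕ) : ℤ :=
  ∑ j ∈ range k, f (e^[j] x)

lemma permPartial_succ (f : ι → ℤ) (x : ι) (k : ℕ) :
    permPartial e f x (k + 1) = permPartial e f x k + f (e^[k] x) :=
  Finset.sum_range_succ _ _

include hn in
lemma permPartial_add_period (hn0 : n ≠ 0) {f : ι → ℤ} (hf : (permPair e n hn).N f = 0)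
    (x : ι) (k : ℕ) :
    permPartial e f x (k + minimalPeriod e x) = permPartial e f x k := by
  unfold permPartial
  rw [Finset.sum_range_add]
  have h := perm_sum_period_eq_zero hn hn0 hf (e^[k] x)
  rw [minimalPeriod_apply_iterate (perm_mem_periodicPts hn hn0 x)] at h
  have h2 : ∑ j ∈ range (minimalPeriod e x), f (e^[k + j] x) = 0 := by
    rw [← h]
    refine Finset.sum_congr rfl fun j _ => ?_
    rw [Nat.add_comm, Function.iterate_add_apply]
  rw [h2, add_zero]

include hn in
lemma permPartial_mod (hn0 : n ≠ 0) {f : ι → ℤ} (hf : (permPair e n hn).N f = 0)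
    (x : ι) (k : ℕ) :
    permPartial e f x (k % minimalPeriod e x) = permPartial e f x k := by
  have key : ∀ q r : ℕ, permPartial e f x (r + minimalPeriod e x * q) = permPartial e f x r := by
    intro q
    induction q with
    | zero => intro r; rw [Nat.mul_zero, Nat.add_zero]
    | succ q ih =>
      intro r
      rw [Nat.mul_succ, ← Nat.add_assoc, permPartial_add_period hn hn0 hf, ih]
  conv_rhs => rw [← Nat.mod_add_div k (minimalPeriod e x)]
  exact (key _ _).symm

include hn in
lemma permPartial_congr (hn0 : n ≠ 0) {f : ι → ℤ} (hf : (permPair e n hn).N f = 0)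
    (x : ι) {k k' : ℕ} (h : e^[k] x = e^[k'] x) :
    permPartial e f x k = permPartial e f x k' := by
  have hd := perm_minimalPeriod_pos hn hn0 x
  have h1 : k % minimalPeriod e x = k' % minimalPeriod e x := by
    apply iterate_injOn_Iio_minimalPeriod (f := e) (x := x)
      (Set.mem_Iio.mpr (Nat.mod_lt _ hd)) (Set.mem_Iio.mpr (Nat.mod_lt _ hd))
    show e^[k % minimalPeriod e x] x = e^[k' % minimalPeriod e x] x
    rw [iterate_mod_minimalPeriod_eq, iterate_mod_minimalPeriod_eq, h]
  rw [← permPartial_mod hn hn0 hf x k, ← permPartial_mod hn hn0 hf x k', h1]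

/-- a representative of the cycle of `x` -/
noncomputable def permRep (e : Equiv.Perm ι) (x : ι) : ι :=
  Quotient.out (Quotient.mk (Equiv.Perm.SameCycle.setoid e) x)

lemma permRep_sameCycle (e : Equiv.Perm ι) (x : ι) : e.SameCycle (permRep e x) x :=
  Quotient.exact (Quotient.out_eq (Quotient.mk (Equiv.Perm.SameCycle.setoid e) x))

lemma permRep_eq_of_sameCycle (e : Equiv.Perm ι) {x y : ι} (h : e.SameCycle x y) :
    permRep e x = permRep e y := by
  unfold permRep
  rw [show Quotient.mk (Equiv.Perm.SameCycle.setoid e) x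
      = Quotient.mk (Equiv.Perm.SameCycle.setoid e) y from Quotient.sound h]

lemma permRep_apply (e : Equiv.Perm ι) (x : ι) : permRep e (e x) = permRep e x :=
  permRep_eq_of_sameCycle e (Equiv.Perm.sameCycle_apply_left.mpr (Equiv.Perm.SameCycle.refl e x))

lemma permRep_exists_iterate [Finite ι] (e : Equiv.Perm ι) (x : ι) :
    ∃ k : ℕ, e^[k] (permRep e x) = x := by
  obtain ⟨k, hk⟩ := (permRep_sameCycle e x).exists_nat_pow_eq
  exact ⟨k, by rw [Equiv.Perm.iterate_eq_pow]; exact hk⟩

include hn in
/-- **`Ĥ⁻¹` of a permutation lattice vanishes**: `ker N ≤ im D`. -/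
theorem permPair_ker_N_le_range_D [Finite ι] (hn0 : n ≠ 0) :
    (permPair e n hn).N.ker ≤ (permPair e n hn).D.range := by
  intro f hf
  rw [AddMonoidHom.mem_ker] at hf
  choose k hk using permRep_exists_iterate e
  refine ⟨fun x => permPartial e f (permRep e x) (k x), ?_⟩
  funext x
  rw [permPair_D_apply]
  show permPartial e f (permRep e (e x)) (k (e x)) - permPartial e f (permRep e x) (k x) = f x
  rw [permRep_apply]
  have h1 : e^[k (e x)] (permRep e x) = e^[k x + 1] (permRep e x) := by
    rw [Function.iterate_succ_apply', hk x, ← permRep_apply e x, hk (e x)]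
  rw [permPartial_congr hn hn0 hf _ h1, permPartial_succ, hk x]
  ring

include hn in
/-- **`h1 = 1` for permutation lattices.** -/
theorem permPair_h1 [Finite ι] (hn0 : n ≠ 0) : (permPair e n hn).h1 = 1 :=
  AddSubgroup.relIndex_eq_one.mpr (permPair_ker_N_le_range_D hn hn0)

/-! ### `h0` of a permutation lattice -/

/-- the type of cycles of `e` -/
abbrev permCycles (e : Equiv.Perm ι) : Type _ := Quotient (Equiv.Perm.SameCycle.setoid e)

/-- `n / (length of the cycle c)` -/
noncomputable def permMult (e : Equiv.Perm ι) (n : ℕ) (c : permCycles e) : ℕ :=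
  n / minimalPeriod e (Quotient.out c)

/-- evaluation at the representatives, modulo `n / length` -/
noncomputable def permPhi (e : Equiv.Perm ι) (n : ℕ) :
    (ι → ℤ) →+ ((c : permCycles e) → ZMod (permMult e n c)) where
  toFun f := fun c => ((f (Quotient.out c) : ℤ) : ZMod (permMult e n c))
  map_zero' := by funext c; simp
  map_add' := by intro f g; funext c; simp

lemma permPhi_apply (f : ι → ℤ) (c : permCycles e) :
    permPhi e n f c = ((f (Quotient.out c) : ℤ) : ZMod (permMult e n c)) := rfl

include hn in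
lemma perm_const_of_mem_ker_D {f : ι → ℤ} (hf : f ∈ (permPair e n hn).D.ker) (x : ι) (k : ℕ) :
    f (e^[k] x) = f x := by
  rw [AddMonoidHom.mem_ker] at hf
  have h1 : ∀ y, f (e y) = f y := by
    intro y
    have := congrFun hf y
    rw [permPair_D_apply] at this
    exact sub_eq_zero.mp this
  induction k with
  | zero => rfl
  | succ k ih => rw [Function.iterate_succ_apply', h1, ih]

include hn in
lemma perm_const_of_sameCycle [Finite ι] {f : ι → ℤ} (hf : f ∈ (permPair e n hn).D.ker)
    {x y : ι} (h : e.SameCycle x y) : f x = f y := by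
  obtain ⟨k, hk⟩ := h.exists_nat_pow_eq
  rw [← hk, ← Equiv.Perm.iterate_eq_pow, perm_const_of_mem_ker_D hn hf]

include hn in
lemma perm_minimalPeriod_eq_of_sameCycle [Finite ι] (hn0 : n ≠ 0) {x y : ι}
    (h : e.SameCycle x y) : minimalPeriod e x = minimalPeriod e y := by
  obtain ⟨k, hk⟩ := h.exists_nat_pow_eq
  rw [← hk, ← Equiv.Perm.iterate_eq_pow,
    minimalPeriod_apply_iterate (perm_mem_periodicPts hn hn0 x)]

include hn in
lemma permPhi_map_ker_D : ((permPair e n hn).D.ker).map (permPhi e n) = ⊤ := by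
  rw [eq_top_iff]
  intro t _
  refine ⟨fun x => ((t (Quotient.mk _ x)).cast : ℤ), ?_, ?_⟩
  · show _ ∈ (permPair e n hn).D.ker
    rw [AddMonoidHom.mem_ker]
    funext x
    rw [permPair_D_apply]
    have : (Quotient.mk (Equiv.Perm.SameCycle.setoid e) (e x))
        = Quotient.mk (Equiv.Perm.SameCycle.setoid e) x :=
      Quotient.sound (Equiv.Perm.sameCycle_apply_left.mpr (Equiv.Perm.SameCycle.refl e x))
    show ((t (Quotient.mk _ (e x))).cast : ℤ) - ((t (Quotient.mk _ x)).cast : ℤ) = 0
    rw [this, sub_self]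
  · funext c
    rw [permPhi_apply]
    have key : ∀ c' : permCycles e, c' = c →
        (((t c').cast : ℤ) : ZMod (permMult e n c)) = t c := by
      rintro c' rfl
      exact ZMod.intCast_zmod_cast _
    exact key _ (Quotient.out_eq c)

include hn in
lemma permPhi_eq_zero_of_mem_range_N {f : ι → ℤ} (hf : f ∈ (permPair e n hn).N.range) :
    permPhi e n f = 0 := by
  obtain ⟨g, rfl⟩ := hf
  funext c
  rw [permPhi_apply, permPair_N_apply' hn]
  have h0 : ((n / minimalPeriod e (Quotient.out c) : ℕ) : ZMod (permMult e n c)) = 0 :=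
    ZMod.natCast_self _
  rw [Int.cast_mul, Int.cast_natCast, h0, zero_mul]
  rfl

include hn in
lemma mem_range_N_of_permPhi_eq_zero [Finite ι] (hn0 : n ≠ 0) {f : ι → ℤ}
    (hfD : f ∈ (permPair e n hn).D.ker) (hf : permPhi e n f = 0) :
    f ∈ (permPair e n hn).N.range := by
  classical
  have hdvd : ∀ c : permCycles e, ((permMult e n c : ℕ) : ℤ) ∣ f (Quotient.out c) := by
    intro c
    have := congrFun hf c
    rw [permPhi_apply] at this
    exact (ZMod.intCast_zmod_eq_zero_iff_dvd _ _).mp this
  choose a ha using hdvd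
  refine ⟨fun x => if x = permRep e x then a (Quotient.mk _ x) else 0, ?_⟩
  funext x
  rw [permPair_N_apply' hn]
  -- the unique index hitting the representative
  have hd := perm_minimalPeriod_pos hn hn0 x
  obtain ⟨k, hk⟩ := (permRep_sameCycle e x).symm.exists_nat_pow_eq
  rw [← Equiv.Perm.iterate_eq_pow] at hk
  set k₀ := k % minimalPeriod e x with hk₀
  have hk₀lt : k₀ < minimalPeriod e x := Nat.mod_lt _ hd
  have hk₀' : e^[k₀] x = permRep e x := by
    rw [hk₀, iterate_mod_minimalPeriod_eq, hk]
  have hrep : ∀ j, permRep e (e^[j] x) = permRep e x := by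
    intro j
    apply permRep_eq_of_sameCycle
    rw [Equiv.Perm.iterate_eq_pow]
    exact Equiv.Perm.sameCycle_pow_left.mpr (Equiv.Perm.SameCycle.refl e x)
  have hmk : ∀ j, (Quotient.mk (Equiv.Perm.SameCycle.setoid e) (e^[j] x))
      = Quotient.mk (Equiv.Perm.SameCycle.setoid e) x := by
    intro j
    apply Quotient.sound
    show e.SameCycle (e^[j] x) x
    rw [Equiv.Perm.iterate_eq_pow]
    exact Equiv.Perm.sameCycle_pow_left.mpr (Equiv.Perm.SameCycle.refl e x)
  rw [Finset.sum_eq_single k₀]
  · show _ * (if e^[k₀] x = permRep e (e^[k₀] x) then a (Quotient.mk _ (e^[k₀] x)) else 0) = f x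
    rw [hrep, if_pos hk₀', hmk]
    have h1 : f x = f (Quotient.out (Quotient.mk (Equiv.Perm.SameCycle.setoid e) x)) :=
      perm_const_of_sameCycle hn hfD (permRep_sameCycle e x).symm
    rw [h1, ha]
    have h2 : minimalPeriod e x
        = minimalPeriod e (Quotient.out (Quotient.mk (Equiv.Perm.SameCycle.setoid e) x)) :=
      perm_minimalPeriod_eq_of_sameCycle hn hn0 (permRep_sameCycle e x).symm
    rw [h2]
    rfl
  · intro j hj hjk
    show (if e^[j] x = permRep e (e^[j] x) then a (Quotient.mk _ (e^[j] x)) else 0) = 0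
    rw [hrep, if_neg]
    intro hcon
    apply hjk
    exact iterate_injOn_Iio_minimalPeriod (f := e) (x := x)
      (Set.mem_Iio.mpr (Finset.mem_range.mp hj)) (Set.mem_Iio.mpr hk₀lt) (hcon.trans hk₀'.symm)
  · intro h
    exact absurd (Finset.mem_range.mpr hk₀lt) h

include hn in
/-- **`h0` of a permutation lattice**: the product over the cycles `c` of `n / length c`. -/
theorem permPair_h0 [Finite ι] (hn0 : n ≠ 0) :
    (permPair e n hn).h0 = ∏ᶠ c : permCycles e, permMult e n c := by
  classical
  have hinf : (permPair e n hn).N.range ⊓ (permPair e n hn).D.ker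
      = (permPhi e n).ker ⊓ (permPair e n hn).D.ker := by
    ext f
    constructor
    · rintro ⟨h1, h2⟩
      exact ⟨AddMonoidHom.mem_ker.mpr (permPhi_eq_zero_of_mem_range_N hn h1), h2⟩
    · rintro ⟨h1, h2⟩
      exact ⟨mem_range_N_of_permPhi_eq_zero hn hn0 h2 (AddMonoidHom.mem_ker.mp h1), h2⟩
  have hfinC : Finite (permCycles e) := inferInstance
  let _ : Fintype (permCycles e) := Fintype.ofFinite _
  rw [HerbrandPair.h0, ← AddSubgroup.inf_relIndex_right, hinf, AddSubgroup.inf_relIndex_right,
    AddSubgroup.relIndex_ker, permPhi_map_ker_D hn, finprod_eq_prod_of_fintype]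
  rw [show Nat.card (⊤ : AddSubgroup ((c : permCycles e) → ZMod (permMult e n c)))
      = Nat.card ((c : permCycles e) → ZMod (permMult e n c)) from
    Nat.card_congr (Equiv.Set.univ _), Nat.card_pi]
  exact Finset.prod_congr rfl fun c _ => Nat.card_zmod _

include hn in
lemma permMult_pos [Finite ι] (hn0 : n ≠ 0) (c : permCycles e) : 0 < permMult e n c :=
  Nat.div_pos (Nat.le_of_dvd (Nat.pos_of_ne_zero hn0) (perm_minimalPeriod_dvd hn _))
    (perm_minimalPeriod_pos hn hn0 _)

include hn in
/-- The Herbrand indices of a permutation lattice are finite and nonzero. -/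
theorem permPair_ne_zero [Finite ι] (hn0 : n ≠ 0) :
    (permPair e n hn).h0 ≠ 0 ∧ (permPair e n hn).h1 ≠ 0 := by
  classical
  refine ⟨?_, by rw [permPair_h1 hn hn0]; exact one_ne_zero⟩
  rw [permPair_h0 hn hn0]
  let _ : Fintype (permCycles e) := Fintype.ofFinite _
  rw [finprod_eq_prod_of_fintype]
  exact Finset.prod_ne_zero_iff.mpr fun c _ => (permMult_pos hn hn0 c).ne'

/-- fixed points of `e` correspond to the cycles of length one -/
noncomputable def permFixedEquiv (e : Equiv.Perm ι) :
    {x : ι // e x = x} ≃ {c : permCycles e // minimalPeriod e (Quotient.out c) = 1} where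
  toFun x := ⟨Quotient.mk _ x.1, by
    rw [minimalPeriod_eq_one_iff_isFixedPt]
    have h : e.SameCycle (Quotient.out (Quotient.mk (Equiv.Perm.SameCycle.setoid e) x.1)) x.1 :=
      permRep_sameCycle e x.1
    exact (h.apply_eq_self_iff).mpr x.2⟩
  invFun c := ⟨Quotient.out c.1, minimalPeriod_eq_one_iff_isFixedPt.mp c.2⟩
  left_inv x := by
    apply Subtype.ext
    have h : e.SameCycle (Quotient.out (Quotient.mk (Equiv.Perm.SameCycle.setoid e) x.1)) x.1 :=
      permRep_sameCycle e x.1
    exact (h.symm.eq_of_left x.2).symm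
  right_inv c := Subtype.ext (Quotient.out_eq c.1)

include hn in
/-- **Prime order.**  If `n = p` is prime, `h0 = p ^ #(fixed points of e)`. -/
theorem permPair_h0_prime [Finite ι] (hp : n.Prime) :
    (permPair e n hn).h0 = n ^ Nat.card {x : ι // e x = x} := by
  classical
  let _ : Fintype (permCycles e) := Fintype.ofFinite _
  rw [permPair_h0 hn hp.ne_zero, finprod_eq_prod_of_fintype]
  have hmult : ∀ c : permCycles e,
      permMult e n c = if minimalPeriod e (Quotient.out c) = 1 then n else 1 := by
    intro c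
    unfold permMult
    rcases (Nat.dvd_prime hp).mp (perm_minimalPeriod_dvd hn (Quotient.out c)) with h | h
    · rw [h, if_pos rfl, Nat.div_one]
    · rw [h, if_neg hp.ne_one, Nat.div_self hp.pos]
  rw [Finset.prod_congr rfl fun c _ => hmult c, Finset.prod_ite, Finset.prod_const,
    Finset.prod_const_one, mul_one, Nat.card_congr (permFixedEquiv e), Nat.card_eq_fintype_card,
    Fintype.card_subtype]

end perm

end Fermat.Agent.H24
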