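/-
P-ES / ES-D-A1 (row 299), LEMMA A in Kaehler form (helper24).  Mathlib only, any characteristic.

Let `F / K` be a field extension and `x ∈ F` with `F / K(x)` algebraic and separable.  Then

* `sepK_span_D`: `dx` spans `Ω[F⁄K]`;
* `sepK_isSeparable_of_span`: if `dg` spans `Ω[F⁄K]` and `F / K(g)` is finite, then `F / K(g)`
  is separable;
* `sepK_dichotomy`: for `f ≠ 0`, `df` spans or `d(f x)` spans;
* `sepK_isSeparable_or`: for `f ≠ 0` (with the two finiteness hypotheses): `F / K(f)` is separable
  or `F / K(f x)` is separable.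

So the divisor of an arbitrary `f` is `div (f x) - div x`, a difference of divisors of
separating elements (or of a constant): no `p`-th powers, no induction.
-/
import Mathlib

set_option autoImplicit false

noncomputable section

open KaehlerDifferential IntermediateField

namespace Fermat.Agent.H24

variable {K F : Type} [Field K] [Field F] [Algebra K F]

/-- The differentials of elements of `K⟮z⟯` are multiples of `dz`. -/
theorem sepK_D_mem_span_of_mem_adjoin (z : F) {c : F} (hc : c ∈ K⟮z⟯) :
    D K F c ∈ Submodule.span F ({D K F z} : Set Ω[F⁄K]) := by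
  induction hc using IntermediateField.adjoin_induction with
  | mem a ha =>
    rw [Set.mem_singleton_iff] at ha
    subst ha
    exact Submodule.mem_span_singleton_self _
  | algebraMap a =>
    rw [Derivation.map_algebraMap]
    exact zero_mem _
  | add a b _ _ ha hb =>
    rw [map_add]
    exact add_mem ha hb
  | inv a _ ha =>
    rw [Derivation.leibniz_inv]
    exact Submodule.smul_mem _ _ ha
  | mul a b _ _ ha hb =>
    rw [Derivation.leibniz]
    exact add_mem (Submodule.smul_mem _ _ hb) (Submodule.smul_mem _ _ ha)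

/-- If `F / K(x)` is (algebraic and) separable, then `dx` spans `Ω[F⁄K]`. -/
theorem sepK_span_D (x : F) [Algebra.IsSeparable K⟮x⟯ F] :
    Submodule.span F ({D K F x} : Set Ω[F⁄K]) = ⊤ := by
  have : Algebra.FormallyUnramified K⟮x⟯ F := Algebra.FormallyUnramified.of_isSeparable K⟮x⟯ F
  have claim : ∀ t : TensorProduct K⟮x⟯ F Ω[K⟮x⟯⁄K],
      KaehlerDifferential.mapBaseChange K K⟮x⟯ F t ∈ Submodule.span F {D K F x} := by
    intro t
    induction t using TensorProduct.induction_on with
    | zero => simp
    | tmul b y =>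
      rw [KaehlerDifferential.mapBaseChange_tmul]
      refine Submodule.smul_mem _ _ ?_
      have hy : y ∈ Submodule.span K⟮x⟯ (Set.range (D K K⟮x⟯)) := by
        rw [KaehlerDifferential.span_range_derivation]; trivial
      refine Submodule.span_induction ?_ ?_ ?_ ?_ hy
      · rintro _ ⟨c, rfl⟩
        rw [KaehlerDifferential.map_D]
        exact sepK_D_mem_span_of_mem_adjoin x c.2
      · simp
      · intro u w _ _ hu hw
        rw [map_add]
        exact Submodule.add_mem _ hu hw
      · intro a u _ hu
        rw [map_smul, ← algebraMap_smul F a]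
        exact Submodule.smul_mem _ _ hu
    | add u w hu hw =>
      rw [map_add]
      exact Submodule.add_mem _ hu hw
  rw [eq_top_iff]
  intro ω _
  have hω : KaehlerDifferential.map K K⟮x⟯ F F ω = 0 := Subsingleton.elim _ _
  obtain ⟨t, rfl⟩ := (KaehlerDifferential.exact_mapBaseChange_map K K⟮x⟯ F ω).1 hω
  exact claim t

/-- If `dg` spans `Ω[F⁄K]` and `F / K(g)` is finite, then `F / K(g)` is separable. -/
theorem sepK_isSeparable_of_span (g : F) [FiniteDimensional K⟮g⟯ F]
    (h : Submodule.span F ({D K F g} : Set Ω[F⁄K]) = ⊤) : Algebra.IsSeparable K⟮g⟯ F := by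
  have hzero : ∀ ω : Ω[F⁄K], KaehlerDifferential.map K K⟮g⟯ F F ω = 0 := by
    intro ω
    have hω : ω ∈ Submodule.span F ({D K F g} : Set Ω[F⁄K]) := by rw [h]; trivial
    obtain ⟨a, rfl⟩ := Submodule.mem_span_singleton.1 hω
    rw [map_smul, KaehlerDifferential.map_D]
    have hg : algebraMap F F g = algebraMap K⟮g⟯ F ⟨g, IntermediateField.mem_adjoin_simple_self K g⟩ :=
      rfl
    rw [hg, Derivation.map_algebraMap, smul_zero]
  have hsub : Subsingleton Ω[F⁄K⟮g⟯] := by
    refine ⟨fun a b => ?_⟩
    obtain ⟨a', rfl⟩ := KaehlerDifferential.map_surjective K K⟮g⟯ F a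
    obtain ⟨b', rfl⟩ := KaehlerDifferential.map_surjective K K⟮g⟯ F b
    rw [hzero, hzero]
  have : Algebra.FormallyUnramified K⟮g⟯ F := ⟨hsub⟩
  exact Algebra.FormallyUnramified.isSeparable K⟮g⟯ F

/-- For `f ≠ 0`: `df` spans `Ω[F⁄K]`, or `d(f x)` does. -/
theorem sepK_dichotomy (x : F) [Algebra.IsSeparable K⟮x⟯ F] (f : F) (hf : f ≠ 0) :
    Submodule.span F ({D K F f} : Set Ω[F⁄K]) = ⊤ ∨
      Submodule.span F ({D K F (f * x)} : Set Ω[F⁄K]) = ⊤ := by
  have hx := sepK_span_D (K := K) x
  by_cases h0 : D K F f = 0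
  · right
    have e : D K F (f * x) = f • D K F x := by
      rw [Derivation.leibniz, h0, smul_zero, add_zero]
    rw [e, Submodule.span_singleton_smul_eq (IsUnit.mk0 f hf), hx]
  · left
    have hmem : D K F f ∈ Submodule.span F ({D K F x} : Set Ω[F⁄K]) := by rw [hx]; trivial
    obtain ⟨a, ha⟩ := Submodule.mem_span_singleton.1 hmem
    have ha0 : a ≠ 0 := by
      rintro rfl
      exact h0 (by rw [← ha, zero_smul])
    rw [← ha, Submodule.span_singleton_smul_eq (IsUnit.mk0 a ha0), hx]

/-- **Lemma A.**  Let `F / K(x)` be separable.  For every `f ≠ 0` such that `F` is finite over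
`K(f)` and over `K(f x)`: `F / K(f)` is separable or `F / K(f x)` is separable. -/
theorem sepK_isSeparable_or (x : F) [Algebra.IsSeparable K⟮x⟯ F] (f : F) (hf : f ≠ 0)
    (h1 : FiniteDimensional K⟮f⟯ F) (h2 : FiniteDimensional K⟮f * x⟯ F) :
    Algebra.IsSeparable K⟮f⟯ F ∨ Algebra.IsSeparable K⟮f * x⟯ F := by
  rcases sepK_dichotomy (K := K) x f hf with h | h
  · exact Or.inl (sepK_isSeparable_of_span f h)
  · exact Or.inr (sepK_isSeparable_of_span (f * x) h)

/-- Variant of Lemma A with the finiteness hypotheses only where they are used. -/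
theorem sepK_isSeparable_or' (x : F) [Algebra.IsSeparable K⟮x⟯ F] (f : F) (hf : f ≠ 0) :
    (FiniteDimensional K⟮f⟯ F → Algebra.IsSeparable K⟮f⟯ F) ∨
      (FiniteDimensional K⟮f * x⟯ F → Algebra.IsSeparable K⟮f * x⟯ F) := by
  rcases sepK_dichotomy (K := K) x f hf with h | h
  · exact Or.inl fun _ => sepK_isSeparable_of_span f h
  · exact Or.inr fun _ => sepK_isSeparable_of_span (f * x) h

end Fermat.Agent.H24

end
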